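import Fermat.Agent.S37.II.Descent.Main
import Fermat.Agent.S37.II.Finite.One
import Fermat.Agent.S18.Descent.Series
import Fermat.Agent.S18.Descent.FF1
import Fermat.Agent.S37.HeckeInputs.Main
import Fermat.Agent.S18.Gauss.Basic

/-!
# S37 route II, nodes INF1a, INF1 (= C1 over `ℚ̄`): `IsOne e → redDiv (div e) = 0`.
-/

set_option autoImplicit false

noncomputable section

namespace Fermat.Agent.S37.II

open AlgebraicCurve ModularCurve Fermat.Agent.S24 Fermat.Agent.S18 IntermediateField Polynomial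
open Fermat.Agent.S37.HeckeInputs Fermat.Agent.S37.II

section Cinf

variable {M ℓ : ℕ} [NeZero M] (B : BaseData M ℓ) {A : ValuationSubring Kbar}

/-- **INF1a**: descent of `P / Q ≡ 1`. -/
theorem sub_one_div_mem_of_tb (K₁ : IntermediateField ℚ Kbar) (ϖ₁ : K₁)
    (Ow : ValuationSubring (FK K₁ M)) (h₀ : IsUnif (rs A K₁) ϖ₁)
    (hG : IsGauss (rs A K₁) ϖ₁ (FK K₁ M) Ow)
    (P Q : LaurentSeries A) (hP : coeffMap A.subtype P ∈ modularFunctionFieldBar M)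
    (hQ : coeffMap A.subtype Q ∈ modularFunctionFieldBar M)
    (hPQ : rho A P = rho A Q) (hQ0 : rho A Q ≠ 0) (p₁ q₁ : FK K₁ M)
    (hp : tb M K₁ p₁ = ⟨_, hP⟩) (hq : tb M K₁ q₁ = ⟨_, hQ⟩) :
    (p₁ / q₁ - 1) / algebraMap K₁ (FK K₁ M) ϖ₁ ∈ Ow := by
  have hp' : coeffMap (algebraMap K₁ Kbar) (p₁ : LaurentSeries K₁) = coeffMap A.subtype P :=
    congrArg Subtype.val hp
  have hq' : coeffMap (algebraMap K₁ Kbar) (q₁ : LaurentSeries K₁) = coeffMap A.subtype Q :=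
    congrArg Subtype.val hq
  obtain ⟨P₀, hP₀⟩ := exists_integral_descent A K₁ P p₁ hp'
  obtain ⟨Q₀, hQ₀⟩ := exists_integral_descent A K₁ Q q₁ hq'
  have hP₀m : coeffMap (rs A K₁).subtype P₀ ∈ FK K₁ M := by rw [hP₀]; exact p₁.2
  have hQ₀m : coeffMap (rs A K₁).subtype Q₀ ∈ FK K₁ M := by rw [hQ₀]; exact q₁.2
  have hred : coeffMap (IsLocalRing.residue (rs A K₁)) P₀ =
      coeffMap (IsLocalRing.residue (rs A K₁)) Q₀ :=
    (residue_descent A K₁ P Q P₀ Q₀ (by rw [hP₀]; exact hp') (by rw [hQ₀]; exact hq')).1 hPQ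
  have hne : coeffMap (IsLocalRing.residue (rs A K₁)) Q₀ ≠ 0 := by
    intro h0
    apply hQ0
    have := (residue_descent A K₁ Q 0 Q₀ 0 (by rw [hQ₀]; exact hq') (by simp)).2
      (by rw [h0, map_zero])
    rw [map_zero] at this
    exact this
  have key := IsGauss.sub_one_div_mem h₀ hG P₀ Q₀ hP₀m hQ₀m hred hne
  have e1 : (⟨_, hP₀m⟩ : FK K₁ M) = p₁ := Subtype.ext hP₀
  have e2 : (⟨_, hQ₀m⟩ : FK K₁ M) = q₁ := Subtype.ext hQ₀
  rwa [e1, e2] at key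

/-- **INF1** (= C1). -/
theorem redDiv_eq_zero_of_isOne (hG : GoodAt A B) (e : FN M) (he : IsOne A M e)
    (D : Divisor Kbar (FN M)) (hD : ∀ v, D v = v.ord e) : redDiv A (B.xK Kbar) D = 0 := by
  classical
  obtain ⟨d, P, Q, hP, hQ, hd, hPQ, hQ0, rfl⟩ := he
  have hne : ∀ (R : LaurentSeries A) (hR : coeffMap A.subtype R ∈ modularFunctionFieldBar M),
      rho A R ≠ 0 → (⟨_, hR⟩ : FN M) ≠ 0 := by
    intro R hR hR0 h
    apply hR0
    have h1 : coeffMap A.subtype R = 0 := congrArg Subtype.val h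
    have h2 : R = 0 := by
      ext n
      have := congrArg (fun z => HahnSeries.coeff z n) h1
      exact this
    rw [h2]
    exact map_zero _
  have hp0 : (⟨_, hP⟩ : FN M) ≠ 0 := hne P hP (by rw [hPQ]; exact hQ0)
  have hq0 : (⟨_, hQ⟩ : FN M) ≠ 0 := hne Q hQ hQ0
  have hu0 : ((⟨_, hP⟩ : FN M) / ⟨_, hQ⟩) ≠ 0 := div_ne_zero hp0 hq0
  have hd0 : algebraMap Kbar (FN M) d ≠ 0 := fun h => hd ((map_eq_zero _).1 h)
  have hD' : ∀ v, D v = v.ord ((⟨_, hP⟩ : FN M) / ⟨_, hQ⟩) := by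
    intro v
    rw [hD v, v.ord_mul hd0 hu0, FF.ord_algebraMap, zero_add]
  obtain ⟨K₁, hfd, u₁, D₁, hu₁, hT, hD₁, hrat, hiff⟩ :=
    exists_descent B A _ hu0 D hD' {(⟨_, hP⟩ : FN M), (⟨_, hQ⟩ : FN M)}
  obtain ⟨p₁, hp₁⟩ := hT _ (Finset.mem_insert_self _ _)
  obtain ⟨q₁, hq₁⟩ := hT _ (Finset.mem_insert_of_mem (Finset.mem_singleton_self _))
  have hu : u₁ = p₁ / q₁ := by
    apply (tb M K₁).injective
    rw [hu₁, map_div₀, hp₁, hq₁]
  obtain ⟨ϖ₁, Ow, hM, hGa, -⟩ := hG K₁ hfd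
  have : FF.IsFF1 K₁ (FK K₁ M) := Descent.isFF1_modular M K₁
  rw [hiff]
  refine redDiv_eq_zero_of_sub_one hM u₁ ?_ D₁ hD₁ hrat
  rw [hu]
  exact sub_one_div_mem_of_tb K₁ ϖ₁ Ow hM.vert.unif₀ hGa P Q hP hQ hPQ hQ0 p₁ q₁ hp₁ hq₁

end Cinf

end Fermat.Agent.S37.II

end
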