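import Fermat.Agent.S37.II.DefsMod

/-!
# S37, route II, node INF0a (owner helper79, architect helper105)

`isOne_of_monic` : a unit of the Gauss valuation ring whose residue class is algebraic over the
residue field is congruent to a constant over `ℚ̄`.

Sketch: `u = P / Q` with integral series; `H = ∑ p_j P^j Q^(d-j) = Q^d p(u)` is an integral series
divisible by `ϖ₁`, so its reduction vanishes; over `A` the polynomial `p` splits in linear factors
`X - a`, so the reduction of `P - a Q` vanishes for one of them.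
-/

set_option autoImplicit false
set_option linter.unusedSectionVars false
set_option linter.unusedVariables false

noncomputable section

namespace Fermat.Agent.S37.II

open AlgebraicCurve ModularCurve Fermat.Agent.S24 Fermat.Agent.S18 IntermediateField Polynomial

namespace Const

/-! ### pure algebra -/

/-- evaluation of the homogenisation `∑ p_j P^j Q^(d-j)` -/
theorem map_eval_scaleRoots {S T : Type*} [CommRing S] [CommRing T] (f : S →+* T) (p : S[X])
    (P Q : S) (t : T) (h : f P = f Q * t) :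
    f ((p.scaleRoots Q).eval P) = f Q ^ p.natDegree * p.eval₂ f t := by
  rw [← Polynomial.eval₂_at_apply, h, scaleRoots_eval₂_mul]

/-- a monic polynomial over a valuation ring of an algebraically closed field is a product of
linear factors over the valuation ring -/
theorem exists_multiset_eq_prod {Ω : Type*} [Field Ω] [IsAlgClosed Ω] (A : ValuationSubring Ω)
    (p : A[X]) (hp : p.Monic) : ∃ m : Multiset A, p = (m.map fun a => Polynomial.X - C a).prod := by
  have hmon : (p.map A.subtype).Monic := hp.map _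
  have hsplit : (p.map A.subtype).Splits := IsAlgClosed.splits _
  have hroots : ∀ c ∈ (p.map A.subtype).roots, c ∈ A := by
    intro c hc
    have hc0 : (p.map A.subtype).eval c = 0 := (mem_roots hmon.ne_zero).mp hc
    have hint : IsIntegral A c := ⟨p, hp, by rwa [eval_map] at hc0⟩
    obtain ⟨y, hy⟩ := IsIntegrallyClosed.isIntegral_iff.mp hint
    exact hy ▸ y.2
  refine ⟨(p.map A.subtype).roots.pmap (fun c hc => (⟨c, hc⟩ : A)) hroots, ?_⟩
  apply Polynomial.map_injective A.subtype Subtype.val_injective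
  rw [Polynomial.map_multiset_prod, Multiset.map_map, Multiset.map_pmap]
  conv_lhs => rw [hsplit.eq_prod_roots_of_monic hmon]
  congr 1
  rw [Multiset.pmap_eq_map_attach]
  conv_lhs => rw [← Multiset.attach_map_val (p.map A.subtype).roots, Multiset.map_map]
  refine Multiset.map_congr rfl fun c _ => ?_
  simp

/-! ### the inclusion `A₁ = A ∩ K₁ → A` -/

section Inc

variable (A : ValuationSubring Kbar) (K₁ : IntermediateField ℚ Kbar)

/-- the inclusion `A ∩ K₁ → A` -/
def incA : rs A K₁ →+* A :=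
  ((algebraMap K₁ Kbar).comp (rs A K₁).subtype).codRestrict A.toSubring (fun x => x.2)

theorem subtype_comp_incA :
    A.subtype.comp (incA A K₁) = (algebraMap K₁ Kbar).comp (rs A K₁).subtype := rfl

theorem isUnit_incA_iff (x : rs A K₁) : IsUnit (incA A K₁ x) ↔ IsUnit x := by
  constructor
  · intro hu
    obtain ⟨c, hc⟩ := isUnit_iff_exists_inv.mp hu
    have hc' : (((x : K₁) : Kbar)) * (c : Kbar) = 1 := congrArg Subtype.val hc
    have hcx : (c : Kbar) = (((x : K₁)⁻¹ : K₁) : Kbar) := by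
      rw [IntermediateField.coe_inv]
      exact eq_inv_of_mul_eq_one_right hc'
    have hx0 : (x : K₁) ≠ 0 := by
      intro h0
      rw [h0] at hc'
      simp at hc'
    have hmem : (x : K₁)⁻¹ ∈ rs A K₁ := by
      change (((x : K₁)⁻¹ : K₁) : Kbar) ∈ A
      rw [← hcx]
      exact c.2
    exact isUnit_iff_exists_inv.mpr ⟨⟨(x : K₁)⁻¹, hmem⟩, Subtype.ext (mul_inv_cancel₀ hx0)⟩
  · exact fun hu => hu.map _

theorem residue_incA_eq_zero_iff (x : rs A K₁) :
    IsLocalRing.residue A (incA A K₁ x) = 0 ↔ IsLocalRing.residue (rs A K₁) x = 0 := by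
  rw [IsLocalRing.residue_eq_zero_iff, IsLocalRing.residue_eq_zero_iff,
    IsLocalRing.mem_maximalIdeal, IsLocalRing.mem_maximalIdeal, mem_nonunits_iff, mem_nonunits_iff,
    isUnit_incA_iff]

/-- reduction of a series over `A₁` in `k_A((q))` -/
abbrev rr : LaurentSeries (rs A K₁) →+* LaurentSeries (kA A) :=
  coeffMap ((IsLocalRing.residue A).comp (incA A K₁))

theorem rr_eq_zero_iff (Y : LaurentSeries (rs A K₁)) :
    rr A K₁ Y = 0 ↔ coeffMap (IsLocalRing.residue (rs A K₁)) Y = 0 := by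
  constructor
  · intro h
    ext n
    have := congrArg (fun z => HahnSeries.coeff z n) h
    exact (residue_incA_eq_zero_iff A K₁ _).mp this
  · intro h
    ext n
    have := congrArg (fun z => HahnSeries.coeff z n) h
    exact (residue_incA_eq_zero_iff A K₁ _).mpr this

theorem rho_coeffMap_incA (Y : LaurentSeries (rs A K₁)) :
    rho A (coeffMap (incA A K₁) Y) = rr A K₁ Y := coeffMap_coeffMap _ _ _

theorem subtype_coeffMap_incA (Y : LaurentSeries (rs A K₁)) :
    coeffMap A.subtype (coeffMap (incA A K₁) Y) =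
      coeffMap (algebraMap K₁ Kbar) (coeffMap (rs A K₁).subtype Y) := by
  rw [coeffMap_coeffMap, coeffMap_coeffMap, subtype_comp_incA]

end Inc

/-! ### the Gauss valuation ring -/

section Gauss

variable {M : ℕ} {A : ValuationSubring Kbar} {K₁ : IntermediateField ℚ Kbar} {ϖ₁ : K₁}
  {Ow : ValuationSubring (FK K₁ M)}

theorem subtype_injective (K₁ : IntermediateField ℚ Kbar) :
    Function.Injective (coeffMap (rs A K₁).subtype) :=
  Descent.coeffMap_injective _ Subtype.val_injective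

/-- an integral series divisible by `ϖ₁` in `Ow` has reduction zero -/
theorem red_eq_zero_of_div_mem (hG : IsGauss (rs A K₁) ϖ₁ (FK K₁ M) Ow)
    (H : LaurentSeries (rs A K₁)) (hH : coeffMap (rs A K₁).subtype H ∈ FK K₁ M)
    (h : (⟨_, hH⟩ : FK K₁ M) / algebraMap K₁ (FK K₁ M) ϖ₁ ∈ Ow) :
    coeffMap (IsLocalRing.residue (rs A K₁)) H = 0 := by
  by_contra hne
  have h1 := hG.inv_mem H hH hne
  apply hG.unif.inv_notMem
  have hH0 : (⟨_, hH⟩ : FK K₁ M) ≠ 0 := by
    intro h0
    apply hne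
    have h2 : coeffMap (rs A K₁).subtype H = 0 := congrArg Subtype.val h0
    have h3 : H = 0 := subtype_injective K₁ (by rw [h2, map_zero])
    rw [h3, map_zero]
  have e : (algebraMap K₁ (FK K₁ M) ϖ₁)⁻¹ =
      (⟨_, hH⟩ : FK K₁ M)⁻¹ * ((⟨_, hH⟩ : FK K₁ M) / algebraMap K₁ (FK K₁ M) ϖ₁) := by
    rw [div_eq_mul_inv, ← mul_assoc, inv_mul_cancel₀ hH0, one_mul]
  rw [e]
  exact mul_mem h1 h

/-- the numerator of a unit has nonzero reduction -/
theorem red_ne_zero_of_unit (hquot : HasQuot A M K₁ Ow) {u : FK K₁ M} (hu' : u⁻¹ ∈ Ow)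
    (hu0 : u ≠ 0) (P Q : LaurentSeries (rs A K₁))
    (hP : coeffMap (rs A K₁).subtype P ∈ FK K₁ M) (hQ : coeffMap (rs A K₁).subtype Q ∈ FK K₁ M)
    (hQ0 : coeffMap (IsLocalRing.residue (rs A K₁)) Q ≠ 0)
    (hPQ : u * (⟨_, hQ⟩ : FK K₁ M) = ⟨_, hP⟩) :
    coeffMap (IsLocalRing.residue (rs A K₁)) P ≠ 0 := by
  obtain ⟨P', Q', hP', hQ', hQ'0, h'⟩ := hquot u⁻¹ hu'
  intro hP0
  have e1 : (⟨_, hQ⟩ : FK K₁ M) * ⟨_, hQ'⟩ = (⟨_, hP⟩ : FK K₁ M) * ⟨_, hP'⟩ := by
    rw [← hPQ, ← h']
    field_simp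
  have e2 : coeffMap (rs A K₁).subtype (Q * Q') = coeffMap (rs A K₁).subtype (P * P') := by
    rw [map_mul, map_mul]
    exact congrArg Subtype.val e1
  have e3 : Q * Q' = P * P' := subtype_injective K₁ e2
  have e4 := congrArg (coeffMap (IsLocalRing.residue (rs A K₁))) e3
  rw [map_mul, map_mul, hP0, zero_mul] at e4
  exact (mul_ne_zero hQ0 hQ'0) e4

end Gauss

/-! ### constants -/

theorem coeffMap_C {R S : Type*} [CommRing R] [CommRing S] (f : R →+* S) (a : R) :
    coeffMap f (HahnSeries.C a : LaurentSeries R) = HahnSeries.C (f a) :=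
  coeffMap_single f 0 a

theorem coeffMap_comp_C {R S : Type*} [CommRing R] [CommRing S] (f : R →+* S) :
    (coeffMap f).comp (HahnSeries.C : R →+* LaurentSeries R) =
      (HahnSeries.C : S →+* LaurentSeries S).comp f :=
  RingHom.ext fun a => coeffMap_C f a

theorem C_eq_algebraMap (L : Type*) [Field L] :
    (HahnSeries.C : L →+* LaurentSeries L) = algebraMap L (LaurentSeries L) :=
  RingHom.ext fun a => (algebraMap_laurentSeries_eq_single L a).symm

/-- a root in `k((q))` of a product of linear factors over `A` is the residue of a constant -/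
theorem exists_eq_C_of_eval₂_eq_zero (A : ValuationSubring Kbar) (q : A[X]) (hq : q.Monic)
    (w : LaurentSeries (kA A))
    (hw : q.eval₂ ((HahnSeries.C : kA A →+* LaurentSeries (kA A)).comp (IsLocalRing.residue A)) w
      = 0) :
    ∃ a : A, w = HahnSeries.C (IsLocalRing.residue A a) := by
  obtain ⟨m, hm⟩ := exists_multiset_eq_prod A q hq
  rw [hm, ← Polynomial.coe_eval₂RingHom, map_multiset_prod, Multiset.map_map,
    Multiset.prod_eq_zero_iff, Multiset.mem_map] at hw
  obtain ⟨a, -, ha⟩ := hw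
  refine ⟨a, ?_⟩
  simpa [sub_eq_zero] using ha

end Const

variable {M : ℕ} [NeZero M] {A : ValuationSubring Kbar}

open Fermat.Agent.S37.II.Const in
/-- **INF0a**: a unit of the Gauss valuation ring whose residue class is algebraic over the
residue field is congruent to a constant over `ℚ̄`. -/
theorem isOne_of_monic (K₁ : IntermediateField ℚ Kbar) (ϖ₁ : K₁)
    (Ow : ValuationSubring (FK K₁ M)) (h₀ : IsUnif (rs A K₁) ϖ₁)
    (hG : IsGauss (rs A K₁) ϖ₁ (FK K₁ M) Ow)
    (hquot : HasQuot A M K₁ Ow)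
    (u : FK K₁ M) (hu : u ∈ Ow) (hu' : u⁻¹ ∈ Ow) (hu0 : u ≠ 0) (p : K₁[X]) (hp : p.Monic)
    (hpA : ∀ i, p.coeff i ∈ rs A K₁)
    (h : aeval u p / algebraMap K₁ (FK K₁ M) ϖ₁ ∈ Ow) : IsOne A M (tb M K₁ u) := by
  obtain ⟨P, Q, hP, hQ, hQ0, hPQ⟩ := hquot u hu
  have hP0 := red_ne_zero_of_unit hquot hu' hu0 P Q hP hQ hQ0 hPQ
  obtain ⟨p₁, hp₁, -, hmon⟩ : ∃ p₁ : (rs A K₁)[X], p₁.map (rs A K₁).subtype = p ∧
      p₁.natDegree = p.natDegree ∧ p₁.Monic :=
    Polynomial.lifts_and_natDegree_eq_and_monic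
      ((Polynomial.lifts_iff_coeff_lifts p).mpr fun i => ⟨⟨_, hpA i⟩, rfl⟩) hp
  set pt : (LaurentSeries (rs A K₁))[X] := p₁.map HahnSeries.C with hpt
  set H : LaurentSeries (rs A K₁) := (pt.scaleRoots Q).eval P with hH
  -- (i) `H = Q ^ d * p(u)`
  have hPQ' : coeffMap (rs A K₁).subtype P =
      coeffMap (rs A K₁).subtype Q * (u : LaurentSeries K₁) := by
    rw [mul_comm]
    exact (congrArg Subtype.val hPQ).symm
  have hi : coeffMap (rs A K₁).subtype H =
      (((⟨_, hQ⟩ : FK K₁ M) ^ pt.natDegree * aeval u p : FK K₁ M) : LaurentSeries K₁) := by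
    rw [hH, map_eval_scaleRoots _ pt P Q _ hPQ', hpt, eval₂_map, coeffMap_comp_C,
      C_eq_algebraMap, ← eval₂_map, hp₁]
    push_cast
    rw [← IntermediateField.aeval_coe, aeval_def]
  have hHmem : coeffMap (rs A K₁).subtype H ∈ FK K₁ M := by
    rw [hi]
    exact Subtype.property _
  have hHeq : (⟨_, hHmem⟩ : FK K₁ M) = (⟨_, hQ⟩ : FK K₁ M) ^ pt.natDegree * aeval u p :=
    Subtype.ext hi
  have hHred : coeffMap (IsLocalRing.residue (rs A K₁)) H = 0 := by
    apply red_eq_zero_of_div_mem hG H hHmem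
    rw [hHeq, mul_div_assoc]
    exact mul_mem (pow_mem (hG.mem Q hQ) _) h
  -- (ii) reduction
  have hrQ : rr A K₁ Q ≠ 0 := fun h0 => hQ0 ((rr_eq_zero_iff A K₁ Q).mp h0)
  have hrP : rr A K₁ P ≠ 0 := fun h0 => hP0 ((rr_eq_zero_iff A K₁ P).mp h0)
  have hrH : rr A K₁ H = 0 := (rr_eq_zero_iff A K₁ H).mpr hHred
  have hw : rr A K₁ P = rr A K₁ Q * (rr A K₁ P / rr A K₁ Q) := by
    rw [mul_div_cancel₀ _ hrQ]
  rw [hH, map_eval_scaleRoots _ pt P Q _ hw, mul_eq_zero] at hrH
  have hroot := hrH.resolve_left (pow_ne_zero _ hrQ)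
  rw [hpt, eval₂_map, coeffMap_comp_C, ← RingHom.comp_assoc, ← eval₂_map] at hroot
  obtain ⟨a, ha⟩ := exists_eq_C_of_eval₂_eq_zero A (p₁.map (incA A K₁)) (hmon.map _) _ hroot
  have hPa : rr A K₁ P = HahnSeries.C (IsLocalRing.residue A a) * rr A K₁ Q := by
    rw [← ha, div_mul_cancel₀ _ hrQ]
  have ha0 : (a : Kbar) ≠ 0 := by
    intro h0
    have : a = 0 := Subtype.ext h0
    rw [this, map_zero, map_zero, zero_mul] at hPa
    exact hrP hPa
  -- assembly
  have eP : coeffMap A.subtype (coeffMap (incA A K₁) P) =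
      ((tb M K₁ ⟨_, hP⟩ : FN M) : LaurentSeries Kbar) := subtype_coeffMap_incA A K₁ P
  have eQ : coeffMap A.subtype (HahnSeries.C a * coeffMap (incA A K₁) Q) =
      ((algebraMap Kbar (FN M) (a : Kbar) * tb M K₁ ⟨_, hQ⟩ : FN M) : LaurentSeries Kbar) := by
    rw [map_mul, coeffMap_C, subtype_coeffMap_incA, C_eq_algebraMap]
    rfl
  have hP' : coeffMap A.subtype (coeffMap (incA A K₁) P) ∈ modularFunctionFieldBar M := by
    rw [eP]
    exact Subtype.property _
  have hQ' : coeffMap A.subtype (HahnSeries.C a * coeffMap (incA A K₁) Q) ∈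
      modularFunctionFieldBar M := by
    rw [eQ]
    exact Subtype.property _
  have hrho : rho A (coeffMap (incA A K₁) P) = rho A (HahnSeries.C a * coeffMap (incA A K₁) Q) := by
    have e0 : rho A (HahnSeries.C a * coeffMap (incA A K₁) Q) =
        rho A (HahnSeries.C a) * rho A (coeffMap (incA A K₁) Q) := map_mul _ _ _
    have e0' : rho A (HahnSeries.C a) = HahnSeries.C (IsLocalRing.residue A a) := coeffMap_C _ a
    rw [e0, e0', rho_coeffMap_incA, rho_coeffMap_incA, hPa]
  refine ⟨(a : Kbar), coeffMap (incA A K₁) P, HahnSeries.C a * coeffMap (incA A K₁) Q, hP', hQ',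
    ha0, hrho, ?_, ?_⟩
  · rw [← hrho, rho_coeffMap_incA]
    exact hrP
  · have e1 : (⟨_, hP'⟩ : modularFunctionFieldBar M) = tb M K₁ ⟨_, hP⟩ := Subtype.ext eP
    have e2 : (⟨_, hQ'⟩ : modularFunctionFieldBar M) =
        algebraMap Kbar (FN M) (a : Kbar) * tb M K₁ ⟨_, hQ⟩ := Subtype.ext eQ
    have hQne : (⟨_, hQ⟩ : FK K₁ M) ≠ 0 := by
      intro h0
      apply hQ0
      have h2 : coeffMap (rs A K₁).subtype Q = 0 := congrArg Subtype.val h0
      have h3 : Q = 0 := subtype_injective K₁ (by rw [h2, map_zero])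
      rw [h3, map_zero]
    have hQne' : tb M K₁ ⟨_, hQ⟩ ≠ 0 := (map_ne_zero (tb M K₁)).mpr hQne
    have ha0' : algebraMap Kbar (FN M) (a : Kbar) ≠ 0 :=
      (map_ne_zero (algebraMap Kbar (FN M))).mpr ha0
    rw [e1, e2, ← hPQ, map_mul]
    field_simp

end Fermat.Agent.S37.II

end
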