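import Fermat.Agent.S37.II.Descent.Main
import Fermat.Agent.S37.II.Finite.Zero
import Fermat.Agent.S37.II.Infinite.Const
import Fermat.Agent.S37.II.IsOne
import Fermat.Agent.S18.Descent.FF1
import Fermat.Agent.S37.HeckeInputs.Main
import Fermat.Agent.S18.Descent.JLine

/-!
# S37 route II, node INF0 (= C0 over `ℚ̄`): `redDiv (div f) = 0 → IsOne f`
-/

set_option autoImplicit false

noncomputable section

namespace Fermat.Agent.S37.II

open AlgebraicCurve ModularCurve Fermat.Agent.S24 Fermat.Agent.S18 IntermediateField Polynomial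
open Fermat.Agent.S37.HeckeInputs Fermat.Agent.S37.II

private theorem zero_isOne_const_mul {A : ValuationSubring Kbar} {N : ℕ} {e : FN N}
    (h : IsOne A N e) {c : Kbar} (hc : c ≠ 0) : IsOne A N (algebraMap Kbar (FN N) c * e) := by
  obtain ⟨d, P, Q, hP, hQ, hd, h1, h2, he⟩ := h
  exact ⟨c * d, P, Q, hP, hQ, mul_ne_zero hc hd, h1, h2, by rw [he, map_mul, mul_assoc]⟩

variable {M ℓ : ℕ} [NeZero M] (B : BaseData M ℓ) {A : ValuationSubring Kbar}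

/-- **INF0** (= C0). -/
theorem isOne_of_redDiv_eq_zero (hG : GoodAt A B) (f : FN M) (hf : f ≠ 0)
    (D : Divisor Kbar (FN M)) (hD : ∀ v, D v = v.ord f) (h : redDiv A (B.xK Kbar) D = 0) :
    IsOne A M f := by
  obtain ⟨K₁, hfin, f₁, D₁, hf₁, -, hD₁, hrat, hiff⟩ := exists_descent B A f hf D hD ∅
  obtain ⟨ϖ₁, Ow, hM, hGa, hquot⟩ := hG K₁ hfin
  have hf₁0 : f₁ ≠ 0 := by
    rintro rfl
    exact hf (by rw [← hf₁, map_zero])
  obtain ⟨k, p, hp, hpA, hu, hu', hpu⟩ :=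
    exists_monic_of_redDiv_eq_zero hM f₁ hf₁0 D₁ hD₁ hrat (hiff.1 h)
  have hϖ : ϖ₁ ≠ 0 := hM.vert.unif₀.ne_zero
  have hu0 : f₁ / algebraMap K₁ (FK K₁ M) ϖ₁ ^ k ≠ 0 :=
    div_ne_zero hf₁0 (zpow_ne_zero k ((_root_.map_ne_zero _).2 hϖ))
  have h1 := isOne_of_monic K₁ ϖ₁ Ow hM.vert.unif₀ hGa hquot _ hu hu' hu0 p hp hpA hpu
  have hϖ' : algebraMap K₁ Kbar ϖ₁ ≠ 0 := (_root_.map_ne_zero _).2 hϖ
  have h2 := zero_isOne_const_mul h1 (zpow_ne_zero k hϖ')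
  have e : algebraMap Kbar (FN M) (algebraMap K₁ Kbar ϖ₁ ^ k) *
      tb M K₁ (f₁ / algebraMap K₁ (FK K₁ M) ϖ₁ ^ k) = f := by
    rw [map_div₀, map_zpow₀, map_zpow₀, Descent.toBar_algebraMap, hf₁]
    have : algebraMap Kbar (FN M) (algebraMap K₁ Kbar ϖ₁) ^ k ≠ 0 :=
      zpow_ne_zero k ((_root_.map_ne_zero _).2 hϖ')
    exact mul_div_cancel₀ f this
  rwa [e] at h2

end Fermat.Agent.S37.II

end
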